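/-
P-ORD (S33), block B1-ANCHOR, part [CRT] (helper33): ADAPTERS from helper17's glued ring
`Fermat.Agent.H17.ORD.nmCrt` (both charts `j`, `j⁻¹`, membership form) to the consumer Props of
helper37 (`ord` form):

* `nmCrt37    : [DVR]_∞ → [DVR]_0 → [XY] → Fermat.Agent.H37.ORD.NmCrtStatement M p`    (chart `j`);
* `nmCrtInv37 : [DVR]_∞ → [DVR]_0 → [XY] → Fermat.Agent.H37.ORD.NmCrtInvStatement M p` (chart `j⁻¹`).
-/
import Fermat.Agent.H17.ORD.CrtGlobal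
import Fermat.Agent.H37.ORD.AnchorNmDefs

set_option autoImplicit false
set_option linter.unusedSectionVars false
set_option linter.unusedVariables false

noncomputable section

open AlgebraicCurve ModularCurve

namespace Fermat.Agent.H33.ORD

open Fermat.Agent.H72.FF Fermat.Agent.H18.ORD Fermat.Agent.H84.ORD Fermat.Agent.H66

section Generic

variable {F Fk : Type} [Field F] [Field Fk]

/-- the reduction of an inverse -/
theorem crtad_red_inv (V : Subring F) (red : V →+* Fk) {z : F} (hz0 : z ≠ 0) (hz : z ∈ V)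
    (hzi : z⁻¹ ∈ V) : red ⟨z⁻¹, hzi⟩ = (red ⟨z, hz⟩)⁻¹ := by
  have h1 : (⟨z⁻¹, hzi⟩ : V) * ⟨z, hz⟩ = 1 := Subtype.ext (inv_mul_cancel₀ hz0)
  have h2 := congrArg red h1
  rw [map_mul, map_one] at h2
  exact eq_inv_of_mul_eq_one_left h2

variable {K : Type} [Field K] [Algebra K Fk]

/-- `u⁻¹ ∈ O_Q → ord_Q u ≤ 0` -/
theorem crtad_ord_nonpos_of_inv_mem (Q : Place K Fk) {u : Fk} (h : u⁻¹ ∈ Q.toValuationSubring) :
    Q.ord u ≤ 0 := by
  have h1 := Fermat.Agent.H23.ord_nonneg_of_mem Q h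
  rw [Place.ord_inv] at h1
  omega

end Generic

variable {M p : ℕ} [NeZero M] [NeZero p]

/-- **[CRT], chart `j`, in the shape of helper37.** -/
theorem nmCrt37 (hDo : NmDvrOoStatement M p) (hDz : NmDvrZeroStatement M p)
    (hXY : NmCrossStatement M p) : Fermat.Agent.H37.ORD.NmCrtStatement M p := by
  intro A h htot hj hj0 a b ha hb hglue
  have hj' : nmJ (M * p) ∈ gaussOBar (M * p) A := hj
  have hj0' : nmJ (M * p) ∈ nmV0 M p h.cop A := hj0
  have hpair : Fermat.Agent.H17.ORD.CrtPair M p h.cop A (nmJ (M * p)) hj' hj0' a b := by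
    refine ⟨?_, ?_, ?_⟩
    · intro Q hQ
      exact Fermat.Agent.H23.mem_of_ord_nonneg Q
        (ha Q (Fermat.Agent.H23.ord_nonneg_of_mem Q hQ))
    · intro Q hQ
      exact Fermat.Agent.H23.mem_of_ord_nonneg Q
        (hb Q (Fermat.Agent.H23.ord_nonneg_of_mem Q hQ))
    · intro ν _
      exact hglue ν
  obtain ⟨f, hfB, hfoo, hf0, e1, e2⟩ :=
    Fermat.Agent.H17.ORD.nmCrt M p hDo hDz hXY A h (nmJ (M * p)) (Or.inl rfl) hj' hj0' a b hpair
  exact ⟨f, hfB, hfoo, hf0, e1, e2⟩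

/-- **[CRT], chart `j⁻¹`, in the shape of helper37.** -/
theorem nmCrtInv37 (hDo : NmDvrOoStatement M p) (hDz : NmDvrZeroStatement M p)
    (hXY : NmCrossStatement M p) : Fermat.Agent.H37.ORD.NmCrtInvStatement M p := by
  intro A h htot hj hj0 a b ha hb hglue
  have H : NmBase M p A := nmBase_of_soft (Fermat.Agent.H20.ORD.nmSoft M p) h
  have hj' : nmJ (M * p) ∈ gaussOBar (M * p) A := hj
  have hj0' : nmJ (M * p) ∈ nmV0 M p h.cop A := hj0
  have hji : (nmJ (M * p))⁻¹ ∈ gaussOBar (M * p) A := H.oo.jinv_mem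
  have hji0 : (nmJ (M * p))⁻¹ ∈ nmV0 M p h.cop A := H.zero.jinv_mem
  have hjne : nmJ (M * p) ≠ 0 := Fermat.Agent.H17.ORD.crt_nmJ_ne_zero (M * p)
  have eoo : nmRedOo (M * p) A ⟨(nmJ (M * p))⁻¹, hji⟩ =
      (nmRedOo (M * p) A ⟨nmJ (M * p), hj'⟩)⁻¹ :=
    crtad_red_inv _ _ hjne hj' hji
  have ez : nmRed0 M p h.cop A ⟨(nmJ (M * p))⁻¹, hji0⟩ =
      (nmRed0 M p h.cop A ⟨nmJ (M * p), hj0'⟩)⁻¹ :=
    crtad_red_inv _ _ hjne hj0' hji0
  have hpair : Fermat.Agent.H17.ORD.CrtPair M p h.cop A (nmJ (M * p))⁻¹ hji hji0 a b := by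
    refine ⟨?_, ?_, ?_⟩
    · intro Q hQ
      rw [eoo] at hQ
      exact Fermat.Agent.H23.mem_of_ord_nonneg Q (ha Q (crtad_ord_nonpos_of_inv_mem Q hQ))
    · intro Q hQ
      rw [ez] at hQ
      exact Fermat.Agent.H23.mem_of_ord_nonneg Q (hb Q (crtad_ord_nonpos_of_inv_mem Q hQ))
    · intro ν hν
      rw [eoo] at hν
      exact hglue ν (crtad_ord_nonpos_of_inv_mem _ hν)
  obtain ⟨f, hfB, hfoo, hf0, e1, e2⟩ :=
    Fermat.Agent.H17.ORD.nmCrt M p hDo hDz hXY A h (nmJ (M * p))⁻¹ (Or.inr rfl) hji hji0 a b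
      hpair
  exact ⟨f, hfB, hfoo, hf0, e1, e2⟩

end Fermat.Agent.H33.ORD

end
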